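import Mathlib
import Fermat.Agent.S28.CosetSym
import Fermat.Agent.S28.LevelOnePoly

/-!
# Weakly holomorphic modular forms on `Γ₀(N)` (T20 / LATBASIS, part 1)

`IsWH N k f`: `f : ℍ → ℂ` is holomorphic on `ℍ`, invariant under the weight `k` slash action of
`Γ₀(N)`, and meromorphic at all cusps (for every `g ∈ SL(2, ℤ)` some `q ^ m * (f ∣[k] g)` is
bounded at `i∞`).  Closure properties, level-one examples, `1 / Δ`, and the `j`-function.
-/

set_option autoImplicit false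

open UpperHalfPlane ModularForm CongruenceSubgroup Function Periodic Filter Topology
open scoped MatrixGroups ModularForm Manifold

namespace Fermat.Agent.S20_helper26

noncomputable section

local notation "Δ" => ModularForm.discriminant
local notation "𝕢" => Function.Periodic.qParam

/-- weakly holomorphic modular form of weight `k` on `Γ₀(N)`, as a predicate on functions -/
structure IsWH (N : ℕ) (k : ℤ) (f : ℍ → ℂ) : Prop where
  mdiff : MDiff f
  slash : ∀ γ ∈ Gamma0 N, f ∣[k] γ = f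
  mero : ∀ g : SL(2, ℤ), ∃ m : ℕ,
    IsBoundedAtImInfty fun z : ℍ => 𝕢 1 (z : ℂ) ^ m * (f ∣[k] g) z

theorem bdd_qpow_mono {m m' : ℕ} (h : m ≤ m') {F : ℍ → ℂ}
    (hF : IsBoundedAtImInfty fun z : ℍ => 𝕢 1 (z : ℂ) ^ m * F z) :
    IsBoundedAtImInfty fun z : ℍ => 𝕢 1 (z : ℂ) ^ m' * F z :=
  Fermat.Agent.S28.CosetSym.isBoundedAtImInfty_qParam_pow_mul_of_le one_pos h hF

theorem bdd_qpow_add {m₁ m₂ : ℕ} {F G : ℍ → ℂ}
    (hF : IsBoundedAtImInfty fun z : ℍ => 𝕢 1 (z : ℂ) ^ m₁ * F z)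
    (hG : IsBoundedAtImInfty fun z : ℍ => 𝕢 1 (z : ℂ) ^ m₂ * G z) :
    IsBoundedAtImInfty fun z : ℍ => 𝕢 1 (z : ℂ) ^ (max m₁ m₂) * (F z + G z) := by
  have h1 := bdd_qpow_mono (le_max_left m₁ m₂) hF
  have h2 := bdd_qpow_mono (le_max_right m₁ m₂) hG
  have h := h1.add h2
  refine h.congr_left fun z => ?_
  simp only [Pi.add_apply]
  ring

theorem bdd_qpow_mul {m₁ m₂ : ℕ} {F G : ℍ → ℂ}
    (hF : IsBoundedAtImInfty fun z : ℍ => 𝕢 1 (z : ℂ) ^ m₁ * F z)
    (hG : IsBoundedAtImInfty fun z : ℍ => 𝕢 1 (z : ℂ) ^ m₂ * G z) :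
    IsBoundedAtImInfty fun z : ℍ => 𝕢 1 (z : ℂ) ^ (m₁ + m₂) * (F z * G z) := by
  have h := hF.mul hG
  refine h.congr_left fun z => ?_
  simp only [Pi.mul_apply]
  ring

namespace IsWH

variable {N : ℕ} {k k₁ k₂ : ℤ} {f g : ℍ → ℂ}

theorem zero : IsWH N k 0 where
  mdiff := mdifferentiable_const
  slash := fun γ _ => SlashAction.zero_slash k γ
  mero := fun g => ⟨0, by
    have : (fun z : ℍ => 𝕢 1 (z : ℂ) ^ 0 * ((0 : ℍ → ℂ) ∣[k] g) z) = fun _ => (0 : ℂ) := by
      funext z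
      rw [SlashAction.zero_slash]
      simp
    rw [this]
    exact Filter.const_boundedAtFilter _ _⟩

theorem add (hf : IsWH N k f) (hg : IsWH N k g) : IsWH N k (f + g) where
  mdiff := hf.mdiff.add hg.mdiff
  slash := fun γ hγ => by rw [SlashAction.add_slash, hf.slash γ hγ, hg.slash γ hγ]
  mero := fun γ => by
    obtain ⟨m₁, h₁⟩ := hf.mero γ
    obtain ⟨m₂, h₂⟩ := hg.mero γ
    refine ⟨max m₁ m₂, ?_⟩
    have := bdd_qpow_add h₁ h₂
    refine this.congr_left fun z => ?_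
    rw [SlashAction.add_slash]
    rfl

theorem neg (hf : IsWH N k f) : IsWH N k (-f) where
  mdiff := hf.mdiff.neg
  slash := fun γ hγ => by rw [SlashAction.neg_slash, hf.slash γ hγ]
  mero := fun γ => by
    obtain ⟨m₁, h₁⟩ := hf.mero γ
    refine ⟨m₁, ?_⟩
    have := h₁.neg
    refine this.congr_left fun z => ?_
    rw [SlashAction.neg_slash]
    simp

theorem sub (hf : IsWH N k f) (hg : IsWH N k g) : IsWH N k (f - g) := by
  rw [sub_eq_add_neg]
  exact hf.add hg.neg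

theorem mul (hf : IsWH N k₁ f) (hg : IsWH N k₂ g) : IsWH N (k₁ + k₂) (f * g) where
  mdiff := hf.mdiff.mul hg.mdiff
  slash := fun γ hγ => by rw [mul_slash_SL2, hf.slash γ hγ, hg.slash γ hγ]
  mero := fun γ => by
    obtain ⟨m₁, h₁⟩ := hf.mero γ
    obtain ⟨m₂, h₂⟩ := hg.mero γ
    refine ⟨m₁ + m₂, ?_⟩
    have := bdd_qpow_mul h₁ h₂
    refine this.congr_left fun z => ?_
    rw [mul_slash_SL2]
    rfl

theorem congr_weight (hf : IsWH N k₁ f) (h : k₁ = k₂) : IsWH N k₂ f := h ▸ hf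

theorem const (c : ℂ) : IsWH N 0 (fun _ => c) where
  mdiff := mdifferentiable_const
  slash := fun γ _ => by
    funext z
    rw [SL_slash_apply]
    simp
  mero := fun g => ⟨0, by
    have : (fun z : ℍ => 𝕢 1 (z : ℂ) ^ 0 * ((fun _ : ℍ => c) ∣[(0 : ℤ)] g) z) = fun _ => c := by
      funext z
      rw [SL_slash_apply]
      simp
    rw [this]
    exact Filter.const_boundedAtFilter _ _⟩

theorem one : IsWH N 0 (1 : ℍ → ℂ) := const 1

theorem const_mul (c : ℂ) (hf : IsWH N k f) : IsWH N k (fun z => c * f z) := by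
  have := (const (N := N) c).mul hf
  rw [zero_add] at this
  exact this

theorem pow (hf : IsWH N k f) (n : ℕ) : IsWH N (n * k) (f ^ n) := by
  induction n with
  | zero =>
    simp only [Nat.cast_zero, zero_mul, pow_zero]
    exact one
  | succ n ih =>
    rw [pow_succ]
    refine (ih.mul hf).congr_weight ?_
    push_cast
    ring

theorem sum {ι : Type*} (s : Finset ι) {F : ι → ℍ → ℂ} (hF : ∀ i ∈ s, IsWH N k (F i)) :
    IsWH N k (∑ i ∈ s, F i) := by
  classical
  induction s using Finset.induction_on with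
  | empty => simpa using zero
  | insert a s ha ih =>
    rw [Finset.sum_insert ha]
    exact (hF a (Finset.mem_insert_self a s)).add
      (ih fun i hi => hF i (Finset.mem_insert_of_mem hi))

/-- raising the level -/
theorem of_dvd {M : ℕ} (h : N ∣ M) (hf : IsWH N k f) : IsWH M k f where
  mdiff := hf.mdiff
  slash := fun γ hγ => hf.slash γ (by
    rw [Gamma0_mem] at hγ ⊢
    have h1 : ((γ 1 0 : ℤ) : ZMod M) = 0 := hγ
    have h2 : (M : ℤ) ∣ γ 1 0 := (ZMod.intCast_zmod_eq_zero_iff_dvd _ _).mp h1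
    exact (ZMod.intCast_zmod_eq_zero_iff_dvd _ _).mpr ((Int.natCast_dvd_natCast.mpr h).trans h2))
  mero := hf.mero

theorem of_level_one (hf : IsWH 1 k f) : IsWH N k f := hf.of_dvd (one_dvd N)

/-- weight `0`: the slash action is composition -/
theorem slash_zero_apply (f : ℍ → ℂ) (γ : SL(2, ℤ)) (z : ℍ) : (f ∣[(0 : ℤ)] γ) z = f (γ • z) := by
  rw [SL_slash_apply]
  simp

theorem smul_eq (hf : IsWH N 0 f) {γ : SL(2, ℤ)} (hγ : γ ∈ Gamma0 N) (z : ℍ) :
    f (γ • z) = f z := by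
  rw [← slash_zero_apply f γ z, hf.slash γ hγ]

theorem mero_zero (hf : IsWH N 0 f) (g : SL(2, ℤ)) : ∃ m : ℕ,
    IsBoundedAtImInfty fun z : ℍ => 𝕢 1 (z : ℂ) ^ m * f (g • z) := by
  obtain ⟨m, hm⟩ := hf.mero g
  exact ⟨m, hm.congr_left fun z => by rw [slash_zero_apply]⟩

end IsWH

/-! ### Level one examples -/

/-- every element of `SL(2, ℤ)` is in `Γ₀(1)`-invariance: level-one modular forms are `IsWH 1` -/
theorem isWH_of_modularForm {k : ℤ} (F : ModularForm 𝒮ℒ k) : IsWH 1 k F where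
  mdiff := ModularFormClass.holo F
  slash := fun γ _ => SlashInvariantFormClass.slash_action_eq F _ ⟨γ, rfl⟩
  mero := fun g => ⟨0, by
    have h1 : (F : ℍ → ℂ) ∣[k] g = F := SlashInvariantFormClass.slash_action_eq F _ ⟨g, rfl⟩
    have h2 : IsBoundedAtImInfty (F : ℍ → ℂ) := ModularFormClass.bdd_at_infty F
    refine h2.congr_left fun z => ?_
    rw [h1]
    simp⟩

theorem discriminant_slash (γ : SL(2, ℤ)) : (Δ : ℍ → ℂ) ∣[(12 : ℤ)] γ = Δ := by
  have := SlashInvariantFormClass.slash_action_eq CuspForm.discriminant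
    (Matrix.SpecialLinearGroup.mapGL ℝ γ) ⟨γ, rfl⟩
  rw [CuspForm.coe_discriminant] at this
  exact this

theorem mdiff_discriminant : MDiff (Δ : ℍ → ℂ) := by
  have := ModularFormClass.holo CuspForm.discriminant
  simpa using this

theorem discriminant_inv_slash (γ : SL(2, ℤ)) :
    (fun z : ℍ => (Δ z)⁻¹) ∣[(-12 : ℤ)] γ = fun z : ℍ => (Δ z)⁻¹ := by
  funext z
  have h := congrFun (discriminant_slash γ) z
  rw [SL_slash_apply] at h ⊢
  have hd : denom (Matrix.SpecialLinearGroup.toGL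
      ((Matrix.SpecialLinearGroup.map (Int.castRingHom ℝ)) γ)) (z : ℂ) ≠ 0 := denom_ne_zero _ _
  have hΔ : Δ z ≠ 0 := discriminant_ne_zero z
  have hΔ' : Δ (γ • z) ≠ 0 := discriminant_ne_zero _
  rw [← h, neg_neg]
  rw [zpow_neg] at *
  field_simp

theorem tendsto_qParam_div_discriminant :
    Tendsto (fun z : ℍ => 𝕢 1 (z : ℂ) * (Δ z)⁻¹) atImInfty (𝓝 1) := by
  have h := tendsto_atImInfty_tprod_one_sub_eta_q_pow
  have h2 := h.inv₀ one_ne_zero
  rw [inv_one] at h2
  refine h2.congr fun z => ?_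
  rw [discriminant_eq_q_prod]
  have hq : 𝕢 1 (z : ℂ) ≠ 0 := Function.Periodic.qParam_ne_zero _
  field_simp

theorem isWH_discriminant_inv : IsWH 1 (-12) (fun z : ℍ => (Δ z)⁻¹) where
  mdiff := fun z => by
    have h1 : MDiffAt (fun _ : ℍ => (1 : ℂ)) z := mdifferentiableAt_const
    have := h1.div (mdiff_discriminant z) (discriminant_ne_zero z)
    have e : (fun z : ℍ => (Δ z)⁻¹) = (fun _ : ℍ => (1 : ℂ)) / (Δ : ℍ → ℂ) := by
      funext w
      simp
    rw [e]
    exact this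
  slash := fun γ _ => discriminant_inv_slash γ
  mero := fun g => ⟨1, by
    have h : IsBoundedAtImInfty fun z : ℍ => 𝕢 1 (z : ℂ) * (Δ z)⁻¹ :=
      tendsto_qParam_div_discriminant.isBigO_one ℝ
    refine h.congr_left fun z => ?_
    rw [discriminant_inv_slash, pow_one]⟩

/-- the `j`-function `E₄³ / Δ` -/
def jInv (z : ℍ) : ℂ := E₄ z ^ 3 / Δ z

theorem jInv_eq : jInv = (E₄ : ℍ → ℂ) ^ 3 * fun z : ℍ => (Δ z)⁻¹ := by
  funext z
  simp [jInv, div_eq_mul_inv]

theorem isWH_jInv : IsWH 1 0 jInv := by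
  rw [jInv_eq]
  refine (((isWH_of_modularForm E₄).pow 3).mul isWH_discriminant_inv).congr_weight ?_
  norm_num

theorem jInv_smul (γ : SL(2, ℤ)) (z : ℍ) : jInv (γ • z) = jInv z :=
  isWH_jInv.smul_eq (by rw [Gamma0_mem]; exact Subsingleton.elim _ _) z

theorem mdiff_jInv : MDiff jInv := isWH_jInv.mdiff

theorem tendsto_E {k : ℕ} (hk : 3 ≤ k) (hk2 : Even k) :
    Tendsto (E hk : ℍ → ℂ) atImInfty (𝓝 1) := by
  have hper := SlashInvariantFormClass.periodic_comp_ofComplex (f := E hk) one_mem_strictPeriods_SL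
  have han : AnalyticAt ℂ (cuspFunction 1 (E hk : ℍ → ℂ)) 0 :=
    ModularFormClass.analyticAt_cuspFunction_zero (E hk) one_pos one_mem_strictPeriods_SL
  have h0 : cuspFunction 1 (E hk : ℍ → ℂ) 0 = 1 := by
    have := EisensteinSeries.E_qExpansion_coeff_zero (k := k) hk hk2
    simpa [qExpansion_coeff] using this
  have hcomp : (cuspFunction 1 (E hk : ℍ → ℂ) ∘ fun τ : ℍ => Function.Periodic.qParam 1 (τ : ℂ))
      = E hk := by
    funext τ
    simpa using eq_cuspFunction τ one_ne_zero hper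
  rw [← h0, ← hcomp]
  have := han.continuousAt.tendsto.comp (qParam_tendsto_atImInfty one_pos)
  rwa [hcomp] at this ⊢

theorem tendsto_E₄ : Tendsto (E₄ : ℍ → ℂ) atImInfty (𝓝 1) := tendsto_E _ ⟨2, rfl⟩

theorem tendsto_E₆ : Tendsto (E₆ : ℍ → ℂ) atImInfty (𝓝 1) := tendsto_E _ ⟨3, rfl⟩

theorem tendsto_qParam_mul_jInv :
    Tendsto (fun z : ℍ => 𝕢 1 (z : ℂ) * jInv z) atImInfty (𝓝 1) := by
  have h := (tendsto_E₄.pow 3).mul tendsto_qParam_div_discriminant
  rw [one_pow, one_mul] at h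
  refine h.congr fun z => ?_
  rw [jInv]
  ring

/-- level-one invariant holomorphic functions meromorphic at `i∞` are polynomials in `j` -/
theorem levelOnePoly_jInv : Fermat.Agent.S28.CosetSym.LevelOnePoly jInv := by
  intro g hg hinv m hm
  exact Fermat.Agent.S28.LevelOnePoly.exists_poly_of_invariant jInv g mdiff_jInv jInv_smul
    tendsto_qParam_mul_jInv hg hinv m hm

theorem jInv_poly_unique {P Q : Polynomial ℂ} (h : ∀ z, P.eval (jInv z) = Q.eval (jInv z)) :
    P = Q :=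
  Fermat.Agent.S28.LevelOnePoly.poly_unique tendsto_qParam_mul_jInv h

theorem isWH_poly_jInv (N : ℕ) (P : Polynomial ℂ) : IsWH N 0 (fun z => P.eval (jInv z)) := by
  have e : (fun z => P.eval (jInv z)) =
      ∑ i ∈ Finset.range (P.natDegree + 1), fun z => P.coeff i * (jInv ^ i) z := by
    funext z
    rw [Finset.sum_apply, Polynomial.eval_eq_sum_range]
    rfl
  rw [e]
  refine IsWH.sum _ fun i _ => ?_
  refine IsWH.const_mul _ ?_
  have := (isWH_jInv.pow i).of_level_one (N := N)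
  rwa [mul_zero] at this

theorem IsWH.poly_mul {N : ℕ} {k : ℤ} {f : ℍ → ℂ} (hf : IsWH N k f) (P : Polynomial ℂ) :
    IsWH N k (fun z => P.eval (jInv z) * f z) := by
  have := (isWH_poly_jInv N P).mul hf
  rwa [zero_add] at this

end

end Fermat.Agent.S20_helper26
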