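import Mathlib
import Fermat.Agent.S20_helper26.WH
import Fermat.Agent.S23.FormT
import Fermat.Agent.S23.LagAlg

/-!
# Conjugates of weakly holomorphic forms on `Γ₀(N)` (T20 / LATBASIS, part 2)

* `isWH_of_isMF`: modular forms on `Γ₀(N)` are `IsWH N k`.
* `tFun N`: a weight `0` form on `Γ₀(N)` whose stabiliser in `SL(2, ℤ)` is exactly `Γ₀(N)`.
* traces and the Lagrange interpolation step.
-/

set_option autoImplicit false

open UpperHalfPlane ModularForm CongruenceSubgroup Function Periodic Filter Topology Polynomial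
open scoped MatrixGroups ModularForm Manifold

namespace Fermat.Agent.S20_helper26

noncomputable section

open Fermat.Agent.S23 (IsMF G0)
open Fermat.Agent.S28.CosetSym

local notation "Δ" => ModularForm.discriminant
local notation "𝕢" => Function.Periodic.qParam

variable {N : ℕ} [NeZero N]

/-- modular forms on `Γ₀(N)` are weakly holomorphic -/
theorem isWH_of_isMF {k : ℤ} {f : ℍ → ℂ} (hf : IsMF (G0 N) k f) : IsWH N k f := by
  obtain ⟨F, rfl⟩ := hf
  refine ⟨ModularFormClass.holo F, fun γ hγ => ?_, fun g => ⟨0, ?_⟩⟩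
  · exact SlashInvariantFormClass.slash_action_eq F _ ⟨γ, hγ, rfl⟩
  · have h2 : IsBoundedAtImInfty ((F : ℍ → ℂ) ∣[k] g) := ModularFormClass.bdd_at_infty_slash F g
    refine h2.congr_left fun z => ?_
    simp

/-- the weight `-4` level one form `E₄² / Δ` -/
def uFun : ℍ → ℂ := (E₄ : ℍ → ℂ) ^ 2 * fun z : ℍ => (Δ z)⁻¹

theorem isWH_uFun : IsWH 1 (-4) uFun :=
  (((isWH_of_modularForm E₄).pow 2).mul isWH_discriminant_inv).congr_weight (by norm_num)

theorem uFun_ne_zero : uFun ≠ 0 := by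
  intro h
  have h1 : ∀ᶠ z in atImInfty, (E₄ : ℍ → ℂ) z ≠ 0 := tendsto_E₄.eventually_ne one_ne_zero
  obtain ⟨z, hz⟩ := h1.exists
  have h2 := congrFun h z
  simp only [uFun, Pi.mul_apply, Pi.pow_apply, Pi.zero_apply, mul_eq_zero, inv_eq_zero,
    pow_eq_zero_iff (two_ne_zero)] at h2
  rcases h2 with h2 | h2
  · exact hz h2
  · exact discriminant_ne_zero z h2

/-- a weight `0` weakly holomorphic form on `Γ₀(N)` with stabiliser exactly `Γ₀(N)` -/
def tFun (N : ℕ) : ℍ → ℂ := Fermat.Agent.S23.FormT.T N * uFun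

theorem isWH_T : IsWH N 4 (Fermat.Agent.S23.FormT.T N) :=
  isWH_of_isMF (Fermat.Agent.S23.FormT.isMF_T N)

theorem isWH_tFun : IsWH N 0 (tFun N) :=
  ((isWH_T (N := N)).mul isWH_uFun.of_level_one).congr_weight (by norm_num)

theorem mem_Gamma0_of_tFun_smul {γ : SL(2, ℤ)} (h : ∀ z, tFun N (γ • z) = tFun N z) :
    γ ∈ Gamma0 N := by
  by_contra hγ
  have h1 : Matrix.SpecialLinearGroup.mapGL ℝ γ ∉ G0 N := by
    rintro ⟨γ', hγ', he⟩
    have : γ' = γ := Matrix.SpecialLinearGroup.mapGL_injective he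
    exact hγ (this ▸ hγ')
  have h2 := Fermat.Agent.S23.FormT.T_slash_ne N _ ⟨γ, rfl⟩ h1
  have h3 : (tFun N) ∣[(0 : ℤ)] γ = tFun N := by
    funext z
    rw [IsWH.slash_zero_apply, h z]
  have h4 : (tFun N) ∣[(0 : ℤ)] γ = (Fermat.Agent.S23.FormT.T N ∣[(4 : ℤ)] γ) * uFun := by
    have := mul_slash_SL2 4 (-4) γ (Fermat.Agent.S23.FormT.T N) uFun
    rw [isWH_uFun.slash γ (by rw [Gamma0_mem]; exact Subsingleton.elim _ _)] at this
    rw [← this]
    rfl
  have h5 : ((Fermat.Agent.S23.FormT.T N ∣[(4 : ℤ)] γ) - Fermat.Agent.S23.FormT.T N) * uFun = 0 := by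
    rw [sub_mul, ← h4, h3]
    exact sub_self _
  have hmd : MDiff (Fermat.Agent.S23.FormT.T N ∣[(4 : ℤ)] γ) := by
    have := (isWH_T (N := N)).mdiff.slash 4 (Matrix.SpecialLinearGroup.mapGL ℝ γ)
    exact this
  rw [UpperHalfPlane.mul_eq_zero_iff (hmd.sub (isWH_T (N := N)).mdiff) isWH_uFun.mdiff] at h5
  rcases h5 with h5 | h5
  · exact h2 (sub_eq_zero.mp h5)
  · exact uFun_ne_zero h5

/-! ### Conjugates -/

/-- a `Fintype` structure on the coset space -/
local instance instFintypeCoset : Fintype (SL(2, ℤ) ⧸ Gamma0 N) := Fintype.ofFinite _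

open Classical in
local instance instDecEqCoset : DecidableEq (SL(2, ℤ) ⧸ Gamma0 N) := Classical.decEq _

variable {f : ℍ → ℂ}

omit [NeZero N] in
theorem IsWH.hinv (hf : IsWH N 0 f) : ∀ γ ∈ Gamma0 N, ∀ z, f (γ • z) = f z :=
  fun _ hγ z => hf.smul_eq hγ z

/-- the trace of a weight `0` form is a polynomial in `j` -/
theorem exists_poly_trace (hf : IsWH N 0 f) :
    ∃ P : ℂ[X], ∀ z, ∑ q, cosetFun (Gamma0 N) f q z = P.eval (jInv z) := by
  obtain ⟨P, hP⟩ := exists_poly_esymmFun_cosetFun (Γ := Gamma0 N) levelOnePoly_jInv hf.mdiff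
    hf.hinv one_pos hf.mero_zero 1
  refine ⟨P, fun z => ?_⟩
  rw [← hP z, esymmFun, Finset.powersetCard_one, Finset.sum_map]
  simp

/-- the coefficients of the characteristic polynomial of the conjugates are polynomials in `j` -/
theorem exists_poly_coeff (hf : IsWH N 0 f) (r : ℕ) :
    ∃ P : ℂ[X], ∀ z, (charPoly (cosetFun (Gamma0 N) f) z).coeff r = P.eval (jInv z) := by
  obtain ⟨m, hm⟩ := exists_isBoundedAtImInfty_cosetFun (Γ := Gamma0 N) one_pos hf.mero_zero
  exact exists_poly_charPoly_coeff levelOnePoly_jInv (mdiff_cosetFun hf.mdiff)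
    (isPermuted_cosetFun hf.hinv) one_pos hm r

/-- the trivial coset -/
def q₁ (N : ℕ) : SL(2, ℤ) ⧸ Gamma0 N := ((1 : SL(2, ℤ)) : SL(2, ℤ) ⧸ Gamma0 N)

/-- the index of `Γ₀(N)` as the cardinality of the coset space -/
def μ (N : ℕ) [NeZero N] : ℕ := Fintype.card (SL(2, ℤ) ⧸ Gamma0 N)

theorem μ_eq_index : μ N = (Gamma0 N).index := by
  rw [μ, Subgroup.index_eq_card, Nat.card_eq_fintype_card]

/-- `B = ∏_{q ≠ 1} (t - t_q)` -/
def Bfun (N : ℕ) [NeZero N] (z : ℍ) : ℂ :=
  ∏ q ∈ Finset.univ.erase (q₁ N), (tFun N z - cosetFun (Gamma0 N) (tFun N) q z)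

omit [NeZero N] in
theorem cosetFun_q₁ (hf : IsWH N 0 f) (z : ℍ) : cosetFun (Gamma0 N) f (q₁ N) z = f z :=
  cosetFun_one hf.hinv z

/-- **Lagrange interpolation**: `f * B` is a `ℂ[j]`-combination of `1, t, …, t^(μ-1)`. -/
theorem exists_lagrange (hf : IsWH N 0 f) : ∃ P : ℕ → ℂ[X], ∀ z,
    f z * Bfun N z = ∑ a ∈ Finset.range (μ N), (P a).eval (jInv z) * tFun N z ^ a := by
  have ht := isWH_tFun (N := N)
  choose S hS using exists_poly_coeff ht
  have hftb : ∀ b : ℕ, IsWH N 0 (f * tFun N ^ b) := fun b =>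
    (hf.mul (ht.pow b)).congr_weight (by simp)
  choose Tr hTr using fun b => exists_poly_trace (hftb b)
  refine ⟨fun a => ∑ l ∈ Finset.Icc (a + 1) (μ N), S l * Tr (l - (a + 1)), fun z => ?_⟩
  have key := Fermat.Agent.S23.lagrange_identity
    (fun q => cosetFun (Gamma0 N) (tFun N) q z) (fun q => cosetFun (Gamma0 N) f q z) (q₁ N)
  have key2 := Fermat.Agent.S23.prod_erase_eq_sum
    (fun q => cosetFun (Gamma0 N) (tFun N) q z) (q₁ N)
  simp only [cosetFun_q₁ ht, cosetFun_q₁ hf] at key key2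
  rw [← key2] at key
  rw [Bfun, key]
  refine Finset.sum_congr rfl fun a _ => ?_
  congr 1
  rw [eval_finsetSum]
  refine Finset.sum_congr rfl fun l _ => ?_
  rw [eval_mul, ← hS l z, ← hTr (l - (a + 1)) z]
  rfl

theorem mdiff_Bfun : MDiff (Bfun N) := by
  have ht := isWH_tFun (N := N)
  have e : Bfun N = ∏ q ∈ Finset.univ.erase (q₁ N), (tFun N - cosetFun (Gamma0 N) (tFun N) q) := by
    funext z
    rw [Finset.prod_apply]
    rfl
  rw [e]
  exact MDifferentiable.prod fun q _ => ht.mdiff.sub (mdiff_cosetFun ht.mdiff q)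

/-- distinct cosets give distinct conjugates of `t` -/
theorem cosetFun_tFun_injective : Function.Injective (cosetFun (Gamma0 N) (tFun N)) := by
  intro q q' h
  have h1 : ∀ w, tFun N (((Quotient.out q)⁻¹ * Quotient.out q') • w) = tFun N w := by
    intro w
    have := congrFun h (Quotient.out q' • w)
    simp only [cosetFun] at this
    rw [mul_smul, this, ← mul_smul, inv_mul_cancel, one_smul]
  have h2 := mem_Gamma0_of_tFun_smul h1
  have h3 : ((Quotient.out q : SL(2, ℤ)) : SL(2, ℤ) ⧸ Gamma0 N) = (Quotient.out q' : SL(2, ℤ)) :=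
    QuotientGroup.eq.mpr h2
  rwa [QuotientGroup.out_eq', QuotientGroup.out_eq'] at h3

theorem Bfun_ne_zero : Bfun N ≠ 0 := by
  have ht := isWH_tFun (N := N)
  have e : Bfun N = ∏ q ∈ Finset.univ.erase (q₁ N), (tFun N - cosetFun (Gamma0 N) (tFun N) q) := by
    funext z
    rw [Finset.prod_apply]
    rfl
  rw [e, Ne, UpperHalfPlane.prod_eq_zero_iff
    fun q _ => ht.mdiff.sub (mdiff_cosetFun ht.mdiff q)]
  rintro ⟨q, hq, h⟩
  have h1 : cosetFun (Gamma0 N) (tFun N) (q₁ N) = cosetFun (Gamma0 N) (tFun N) q := by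
    funext z
    rw [cosetFun_q₁ ht]
    have := congrFun h z
    simpa [sub_eq_zero] using this
  exact (Finset.mem_erase.mp hq).1 (cosetFun_tFun_injective h1).symm

/-- the discriminant of the conjugates of `t` -/
def discFun (N : ℕ) [NeZero N] : ℍ → ℂ :=
  ∏ q, ∏ q' ∈ Finset.univ.erase q,
    (cosetFun (Gamma0 N) (tFun N) q - cosetFun (Gamma0 N) (tFun N) q')

theorem mdiff_discFun : MDiff (discFun N) := by
  have ht := isWH_tFun (N := N)
  exact MDifferentiable.prod fun q _ => MDifferentiable.prod fun q' _ =>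
    (mdiff_cosetFun ht.mdiff q).sub (mdiff_cosetFun ht.mdiff q')

theorem discFun_ne_zero : discFun N ≠ 0 := by
  have ht := isWH_tFun (N := N)
  rw [discFun, Ne, UpperHalfPlane.prod_eq_zero_iff fun q _ => MDifferentiable.prod fun q' _ =>
    (mdiff_cosetFun ht.mdiff q).sub (mdiff_cosetFun ht.mdiff q')]
  rintro ⟨q, -, h⟩
  rw [UpperHalfPlane.prod_eq_zero_iff fun q' _ =>
    (mdiff_cosetFun ht.mdiff q).sub (mdiff_cosetFun ht.mdiff q')] at h
  obtain ⟨q', hq', h⟩ := h
  exact (Finset.mem_erase.mp hq').1 (cosetFun_tFun_injective (sub_eq_zero.mp h)).symm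

theorem injective_of_discFun_ne_zero {z : ℍ} (hz : discFun N z ≠ 0) :
    Function.Injective fun q => cosetFun (Gamma0 N) (tFun N) q z := by
  intro q q' h
  by_contra hne
  apply hz
  rw [discFun, Finset.prod_apply]
  refine Finset.prod_eq_zero (Finset.mem_univ q) ?_
  rw [Finset.prod_apply]
  refine Finset.prod_eq_zero (Finset.mem_erase.mpr ⟨Ne.symm hne, Finset.mem_univ q'⟩) ?_
  simpa [sub_eq_zero] using h

/-- **Vandermonde independence**: `1, t, …, t^(μ-1)` are linearly independent over `ℂ[j]`. -/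
theorem theta_injective (P : Fin (μ N) → ℂ[X])
    (h : ∀ z, ∑ a, (P a).eval (jInv z) * tFun N z ^ (a : ℕ) = 0) : P = 0 := by
  have ht := isWH_tFun (N := N)
  -- conjugate relations
  have h1 : ∀ z q, ∑ a, (P a).eval (jInv z) * cosetFun (Gamma0 N) (tFun N) q z ^ (a : ℕ) = 0 := by
    intro z q
    have := h ((Quotient.out q)⁻¹ • z)
    simp only [jInv_smul] at this
    exact this
  -- pointwise vanishing of the coefficients
  have h2 : ∀ z a, (P a).eval (jInv z) * discFun N z = 0 := by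
    intro z a
    by_cases hz : discFun N z = 0
    · rw [hz, mul_zero]
    · have hinj := injective_of_discFun_ne_zero hz
      set p : ℂ[X] := ∑ a : Fin (μ N), C ((P a).eval (jInv z)) * X ^ (a : ℕ) with hp
      have hdeg : p.degree < (μ N : ℕ) := Polynomial.degree_sum_fin_lt _
      have hp0 : p = 0 := by
        by_contra hne
        refine hne (Polynomial.eq_zero_of_natDegree_lt_card_of_eval_eq_zero p hinj (fun q => ?_) ?_)
        · rw [hp, eval_finsetSum]
          simp only [eval_mul, eval_C, eval_pow, eval_X]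
          exact h1 z q
        · exact (Polynomial.natDegree_lt_iff_degree_lt hne).mpr hdeg
      have hc : p.coeff (a : ℕ) = (P a).eval (jInv z) := by
        rw [hp, finsetSum_coeff]
        simp only [coeff_C_mul_X_pow]
        rw [Finset.sum_eq_single a]
        · simp
        · intro b _ hb
          rw [if_neg]
          exact fun h' => hb (Fin.ext h'.symm)
        · intro h'
          exact absurd (Finset.mem_univ a) h'
      rw [← hc, hp0, coeff_zero, zero_mul]
  funext a
  have h3 : (fun z => (P a).eval (jInv z)) * discFun N = 0 := by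
    funext z
    exact h2 z a
  rw [UpperHalfPlane.mul_eq_zero_iff (isWH_poly_jInv N (P a)).mdiff mdiff_discFun] at h3
  rcases h3 with h3 | h3
  · refine jInv_poly_unique fun z => ?_
    rw [Pi.zero_apply, eval_zero]
    exact congrFun h3 z
  · exact absurd h3 discFun_ne_zero

end

end Fermat.Agent.S20_helper26
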