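import Mathlib

/-!
# An abstract freeness criterion for `ℂ[j]`-modules of holomorphic functions
(T20 / LATBASIS, part 3)

`exists_basis_abstract`: let `M` be a class of holomorphic functions on `ℍ` closed under addition
and multiplication by polynomials in a fixed function `j`.  Suppose that, after multiplication by
a fixed nonzero holomorphic function `W`, every element of `M` is a `ℂ[j]`-combination of
`1, t, …, t^(μ-1)`, that these powers are `ℂ[j]`-independent, and that `M` contains `μ` elements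
which are `ℂ[j]`-independent.  Then `M` is a free `ℂ[j]`-module of rank `μ`.
The proof is the structure theorem for submodules of free modules over the PID `ℂ[X]`.
-/

set_option autoImplicit false

open UpperHalfPlane Polynomial
open scoped Manifold

namespace Fermat.Agent.S20_helper26

theorem exists_basis_abstract {μ : ℕ} (j t W : ℍ → ℂ) (M : (ℍ → ℂ) → Prop)
    (h0 : M 0)
    (hadd : ∀ f g, M f → M g → M (f + g))
    (hsmul : ∀ (P : ℂ[X]) (f : ℍ → ℂ), M f → M (fun z => P.eval (j z) * f z))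
    (hmd : ∀ f, M f → MDiff f)
    (hW : MDiff W) (hW0 : W ≠ 0)
    (hΘ : ∀ P : Fin μ → ℂ[X], (∀ z, ∑ a, (P a).eval (j z) * t z ^ (a : ℕ) = 0) → P = 0)
    (hLag : ∀ f, M f → ∃ P : Fin μ → ℂ[X], ∀ z, f z * W z = ∑ a, (P a).eval (j z) * t z ^ (a : ℕ))
    (v : Fin μ → ℍ → ℂ) (hv : ∀ a, M (v a))
    (hvind : ∀ c : Fin μ → ℂ[X], (∀ z, ∑ a, (c a).eval (j z) * v a z = 0) → c = 0) :
    ∃ F : Fin μ → ℍ → ℂ, (∀ a, M (F a)) ∧
      (∀ P : Fin μ → ℂ[X], (∀ z, ∑ a, (P a).eval (j z) * F a z = 0) → P = 0) ∧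
      (∀ f, M f → ∃ P : Fin μ → ℂ[X], ∀ z, f z = ∑ a, (P a).eval (j z) * F a z) := by
  classical
  set Θ : (Fin μ → ℂ[X]) → ℍ → ℂ := fun P z => ∑ a, (P a).eval (j z) * t z ^ (a : ℕ) with hΘdef
  have Θ_zero : ∀ z, Θ 0 z = 0 := by
    intro z
    simp [hΘdef]
  have Θ_add : ∀ P Q z, Θ (P + Q) z = Θ P z + Θ Q z := by
    intro P Q z
    simp only [hΘdef, Pi.add_apply, eval_add, add_mul, Finset.sum_add_distrib]
  have Θ_smul : ∀ (c : ℂ[X]) P z, Θ (c • P) z = c.eval (j z) * Θ P z := by
    intro c P z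
    simp only [hΘdef, Pi.smul_apply, smul_eq_mul, eval_mul, Finset.mul_sum, mul_assoc]
  have Θ_sum : ∀ (n : ℕ) (c : Fin n → ℂ[X]) (P : Fin n → Fin μ → ℂ[X]) z,
      Θ (∑ i, c i • P i) z = ∑ i, (c i).eval (j z) * Θ (P i) z := by
    intro n c P z
    have : ∀ s : Finset (Fin n), Θ (∑ i ∈ s, c i • P i) z = ∑ i ∈ s, (c i).eval (j z) * Θ (P i) z := by
      intro s
      induction s using Finset.induction_on with
      | empty => simpa using Θ_zero z
      | insert a s ha ih => rw [Finset.sum_insert ha, Finset.sum_insert ha, Θ_add, Θ_smul, ih]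
    exact this Finset.univ
  -- the submodule of coefficient vectors
  let N₀ : Submodule ℂ[X] (Fin μ → ℂ[X]) :=
    { carrier := {P | ∃ f, M f ∧ ∀ z, f z * W z = Θ P z}
      add_mem' := by
        rintro P Q ⟨f, hf, hfP⟩ ⟨g, hg, hgQ⟩
        refine ⟨f + g, hadd f g hf hg, fun z => ?_⟩
        rw [Θ_add, ← hfP z, ← hgQ z, Pi.add_apply, add_mul]
      zero_mem' := ⟨0, h0, fun z => by rw [Θ_zero]; simp⟩
      smul_mem' := by
        rintro c P ⟨f, hf, hfP⟩
        refine ⟨_, hsmul c f hf, fun z => ?_⟩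
        rw [Θ_smul, ← hfP z, mul_assoc] }
  have hN₀ : ∀ P, P ∈ N₀ ↔ ∃ f, M f ∧ ∀ z, f z * W z = Θ P z := fun P => Iff.rfl
  obtain ⟨n, ⟨b⟩⟩ := Submodule.nonempty_basis_of_pid (Pi.basisFun ℂ[X] (Fin μ)) N₀
  have hb_mem : ∀ i, ∃ f, M f ∧ ∀ z, f z * W z = Θ (b i : Fin μ → ℂ[X]) z :=
    fun i => (hN₀ _).mp (b i).2
  choose F hFM hFW using hb_mem
  -- cancellation of `W`
  have hcancel : ∀ g : ℍ → ℂ, MDiff g → (∀ z, g z * W z = 0) → ∀ z, g z = 0 := by
    intro g hg hgW z
    have h1 : g * W = 0 := funext hgW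
    rcases (UpperHalfPlane.mul_eq_zero_iff hg hW).mp h1 with h | h
    · exact congrFun h z
    · exact absurd h hW0
  have hmdsum : ∀ (m : ℕ) (c : Fin m → ℂ[X]) (G : Fin m → ℍ → ℂ), (∀ i, M (G i)) →
      MDiff (fun z => ∑ i, (c i).eval (j z) * G i z) := by
    intro m c G hG
    have e : (fun z => ∑ i, (c i).eval (j z) * G i z) =
        ∑ i, fun z => (c i).eval (j z) * G i z := by
      funext z
      rw [Finset.sum_apply]
    rw [e]
    exact MDifferentiable.sum fun i _ => hmd _ (hsmul (c i) _ (hG i))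
  -- independence of `F`
  have hFind : ∀ c : Fin n → ℂ[X], (∀ z, ∑ i, (c i).eval (j z) * F i z = 0) → c = 0 := by
    intro c hc
    have h1 : ∀ z, Θ (∑ i, c i • (b i : Fin μ → ℂ[X])) z = 0 := by
      intro z
      rw [Θ_sum]
      have h2 := congrArg (· * W z) (hc z)
      simp only [Finset.sum_mul, zero_mul] at h2
      rw [← h2]
      refine Finset.sum_congr rfl fun i _ => ?_
      rw [← hFW i z, mul_assoc]
    have h2 := hΘ _ h1
    have h3 : ∑ i, c i • b i = 0 := by
      apply Subtype.ext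
      rw [Submodule.coe_sum]
      simpa using h2
    have h4 := Fintype.linearIndependent_iff.mp b.linearIndependent c h3
    funext i
    exact h4 i
  -- spanning
  have hFspan : ∀ f, M f → ∃ c : Fin n → ℂ[X], ∀ z, f z = ∑ i, (c i).eval (j z) * F i z := by
    intro f hf
    obtain ⟨P, hP'⟩ := hLag f hf
    have hP : ∀ z, f z * W z = Θ P z := hP'
    have hPmem : P ∈ N₀ := (hN₀ P).mpr ⟨f, hf, hP⟩
    set c : Fin n → ℂ[X] := fun i => b.repr ⟨P, hPmem⟩ i with hc
    have hsum : ∑ i, c i • (b i : Fin μ → ℂ[X]) = P := by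
      have h1 := congrArg Subtype.val (b.sum_repr ⟨P, hPmem⟩)
      rw [Submodule.coe_sum] at h1
      simpa using h1
    refine ⟨c, fun z => ?_⟩
    have hg := hcancel (fun z => f z - ∑ i, (c i).eval (j z) * F i z)
      ((hmd f hf).sub (hmdsum n c F hFM)) (fun z => ?_) z
    · exact sub_eq_zero.mp hg
    · rw [sub_mul, hP z, ← hsum, Θ_sum, Finset.sum_mul, sub_eq_zero]
      refine Finset.sum_congr rfl fun i _ => ?_
      rw [← hFW i z, mul_assoc]
  -- the rank
  have hn : n = μ := by
    apply le_antisymm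
    · have := Module.Basis.card_le_card_of_submodule N₀ (Pi.basisFun ℂ[X] (Fin μ)) b
      simpa using this
    · have hvmem : ∀ a : Fin μ, ∃ P : Fin μ → ℂ[X], ∀ z, v a z * W z = Θ P z :=
        fun a => hLag _ (hv a)
      choose Pv hPv using hvmem
      let w : Fin μ → N₀ := fun a => ⟨Pv a, (hN₀ _).mpr ⟨v a, hv a, hPv a⟩⟩
      have hwli : LinearIndependent ℂ[X] w := by
        rw [Fintype.linearIndependent_iff]
        intro c hc
        have h1 : ∑ a, c a • Pv a = 0 := by
          have h2 := congrArg Subtype.val hc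
          rw [Submodule.coe_sum] at h2
          simpa [w] using h2
        have h2 : ∀ z, (∑ a, (c a).eval (j z) * v a z) * W z = 0 := by
          intro z
          have h3 : Θ (∑ a, c a • Pv a) z = 0 := by rw [h1, Θ_zero]
          rw [Θ_sum] at h3
          rw [Finset.sum_mul, ← h3]
          refine Finset.sum_congr rfl fun a _ => ?_
          rw [← hPv a z, mul_assoc]
        have h3 := hvind c (hcancel _ (hmdsum μ c v hv) h2)
        intro a
        rw [h3]
        rfl
      have := b.card_le_card_of_linearIndependent hwli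
      simpa using this
  subst hn
  exact ⟨F, hFM, hFind, hFspan⟩

end Fermat.Agent.S20_helper26
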