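import Mathlib
import Fermat.Agent.S20_helper26.Conj
import Fermat.Agent.S20_helper26.Lattice

/-!
# LATBASIS: weakly holomorphic forms on `Γ₀(N)` are a free `ℂ[j]`-module of rank `[SL₂(ℤ) : Γ₀(N)]`
(T20 / LATBASIS, part 4)

Main results:
* `exists_jBasis_of`: the statement for any weight `k` for which there are nonzero weakly
  holomorphic forms `φ` of weight `k` and `ψ` of weight `-k` on `Γ₀(N)`.
* `exists_jBasis`: the statement for all even weights `k`.
-/

set_option autoImplicit false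

open UpperHalfPlane ModularForm CongruenceSubgroup Function Periodic Filter Topology Polynomial
open scoped MatrixGroups ModularForm Manifold

namespace Fermat.Agent.S20_helper26

noncomputable section

local notation "Δ" => ModularForm.discriminant

variable {N : ℕ} [NeZero N]

theorem mdiff_theta (c : Fin (μ N) → ℂ[X]) :
    MDiff (fun z => ∑ a, (c a).eval (jInv z) * tFun N z ^ (a : ℕ)) := by
  have e : (fun z => ∑ a, (c a).eval (jInv z) * tFun N z ^ (a : ℕ)) =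
      ∑ a : Fin (μ N), fun z => (c a).eval (jInv z) * (tFun N ^ (a : ℕ)) z := by
    funext z
    rw [Finset.sum_apply]
    rfl
  rw [e]
  exact MDifferentiable.sum fun a _ => (((isWH_tFun (N := N)).pow (a : ℕ)).poly_mul (c a)).mdiff

/-- The lattice-basis theorem, given nonzero forms of weights `k` and `-k`. -/
theorem exists_jBasis_of (k : ℤ) (φ ψ : ℍ → ℂ) (hφ : IsWH N k φ) (hφ0 : φ ≠ 0)
    (hψ : IsWH N (-k) ψ) (hψ0 : ψ ≠ 0) :
    ∃ F : Fin (μ N) → ℍ → ℂ, (∀ a, IsWH N k (F a)) ∧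
      (∀ P : Fin (μ N) → ℂ[X], (∀ z, ∑ a, (P a).eval (jInv z) * F a z = 0) → P = 0) ∧
      (∀ f, IsWH N k f → ∃ P : Fin (μ N) → ℂ[X],
        ∀ z, f z = ∑ a, (P a).eval (jInv z) * F a z) := by
  have ht := isWH_tFun (N := N)
  refine exists_basis_abstract jInv (tFun N) (ψ * Bfun N) (IsWH N k) IsWH.zero
    (fun f g hf hg => hf.add hg) (fun P f hf => hf.poly_mul P) (fun f hf => hf.mdiff)
    (hψ.mdiff.mul mdiff_Bfun) ?_ theta_injective ?_ (fun a => φ * tFun N ^ (a : ℕ)) ?_ ?_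
  · intro h
    rcases (UpperHalfPlane.mul_eq_zero_iff hψ.mdiff mdiff_Bfun).mp h with h | h
    · exact hψ0 h
    · exact Bfun_ne_zero h
  · intro f hf
    have hfψ : IsWH N 0 (f * ψ) := (hf.mul hψ).congr_weight (by ring)
    obtain ⟨P, hP⟩ := exists_lagrange hfψ
    refine ⟨fun a => P a, fun z => ?_⟩
    rw [← Finset.sum_range (fun a => (P a).eval (jInv z) * tFun N z ^ a), ← hP z]
    simp only [Pi.mul_apply]
    ring
  · intro a
    exact (hφ.mul (ht.pow (a : ℕ))).congr_weight (by ring)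
  · intro c hc
    have h1 : φ * (fun z => ∑ a, (c a).eval (jInv z) * tFun N z ^ (a : ℕ)) = 0 := by
      funext z
      rw [Pi.mul_apply, Pi.zero_apply, ← hc z, Finset.mul_sum]
      refine Finset.sum_congr rfl fun a _ => ?_
      simp only [Pi.mul_apply, Pi.pow_apply]
      ring
    rcases (UpperHalfPlane.mul_eq_zero_iff hφ.mdiff (mdiff_theta c)).mp h1 with h | h
    · exact absurd h hφ0
    · exact theta_injective c fun z => congrFun h z

/-! ### Nonzero level one forms of all even weights -/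

/-- a level one form of weight `2`: `E₄² E₆ / Δ` -/
def phiTwo : ℍ → ℂ := (E₄ : ℍ → ℂ) ^ 2 * (E₆ : ℍ → ℂ) * fun z : ℍ => (Δ z)⁻¹

/-- a level one form of weight `-2`: `E₄ E₆ / Δ` -/
def phiNegTwo : ℍ → ℂ := (E₄ : ℍ → ℂ) * (E₆ : ℍ → ℂ) * fun z : ℍ => (Δ z)⁻¹

theorem isWH_phiTwo : IsWH 1 2 phiTwo :=
  ((((isWH_of_modularForm E₄).pow 2).mul (isWH_of_modularForm E₆)).mul
    isWH_discriminant_inv).congr_weight (by norm_num)

theorem isWH_phiNegTwo : IsWH 1 (-2) phiNegTwo :=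
  (((isWH_of_modularForm E₄).mul (isWH_of_modularForm E₆)).mul
    isWH_discriminant_inv).congr_weight (by norm_num)

theorem exists_E₄_E₆_ne_zero : ∃ z : ℍ, (E₄ : ℍ → ℂ) z ≠ 0 ∧ (E₆ : ℍ → ℂ) z ≠ 0 := by
  have h1 : ∀ᶠ z in atImInfty, (E₄ : ℍ → ℂ) z ≠ 0 := tendsto_E₄.eventually_ne one_ne_zero
  have h2 : ∀ᶠ z in atImInfty, (E₆ : ℍ → ℂ) z ≠ 0 := tendsto_E₆.eventually_ne one_ne_zero
  exact (h1.and h2).exists

/-- nonzero level one forms of every even weight -/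
theorem exists_isWH_levelOne_ne_zero (m : ℤ) :
    ∃ φ : ℍ → ℂ, IsWH 1 (2 * m) φ ∧ φ ≠ 0 := by
  obtain ⟨z, h4, h6⟩ := exists_E₄_E₆_ne_zero
  have hΔ : (Δ z)⁻¹ ≠ 0 := inv_ne_zero (discriminant_ne_zero z)
  rcases le_total 0 m with hm | hm
  · refine ⟨phiTwo ^ m.toNat, (isWH_phiTwo.pow m.toNat).congr_weight ?_, fun h => ?_⟩
    · rw [Int.toNat_of_nonneg hm]
      ring
    · have := congrFun h z
      simp only [Pi.pow_apply, Pi.zero_apply, phiTwo, Pi.mul_apply] at this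
      exact pow_ne_zero _ (mul_ne_zero (mul_ne_zero (pow_ne_zero 2 h4) h6) hΔ) this
  · refine ⟨phiNegTwo ^ (-m).toNat, (isWH_phiNegTwo.pow (-m).toNat).congr_weight ?_, fun h => ?_⟩
    · rw [Int.toNat_of_nonneg (by omega)]
      ring
    · have := congrFun h z
      simp only [Pi.pow_apply, Pi.zero_apply, phiNegTwo, Pi.mul_apply] at this
      exact pow_ne_zero _ (mul_ne_zero (mul_ne_zero h4 h6) hΔ) this

/-- **LATBASIS**: for even `k`, the weakly holomorphic modular forms of weight `k` on `Γ₀(N)`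
form a free module of rank `[SL(2, ℤ) : Γ₀(N)]` over `ℂ[j]`. -/
theorem exists_jBasis (N : ℕ) [NeZero N] (k : ℤ) (hk : Even k) :
    ∃ F : Fin (Gamma0 N).index → ℍ → ℂ, (∀ a, IsWH N k (F a)) ∧
      (∀ P : Fin (Gamma0 N).index → ℂ[X],
        (∀ τ, ∑ a, (P a).eval (jInv τ) * F a τ = 0) → P = 0) ∧
      (∀ f, IsWH N k f → ∃ P : Fin (Gamma0 N).index → ℂ[X],
        ∀ τ, f τ = ∑ a, (P a).eval (jInv τ) * F a τ) := by
  obtain ⟨m, hm⟩ := hk
  have hk2 : k = 2 * m := by rw [hm]; ring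
  obtain ⟨φ, hφ, hφ0⟩ := exists_isWH_levelOne_ne_zero m
  obtain ⟨ψ, hψ, hψ0⟩ := exists_isWH_levelOne_ne_zero (-m)
  have hφ' : IsWH N k φ := (hφ.of_level_one (N := N)).congr_weight hk2.symm
  have hψ' : IsWH N (-k) ψ := (hψ.of_level_one (N := N)).congr_weight (by rw [hk2]; ring)
  rw [← μ_eq_index]
  exact exists_jBasis_of k φ ψ hφ' hφ0 hψ' hψ0

/-- the weight `2` case, with the `j`-function spelled out -/
theorem exists_jBasis_two (N : ℕ) [NeZero N] :
    ∃ F : Fin (Gamma0 N).index → ℍ → ℂ, (∀ a, IsWH N 2 (F a)) ∧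
      (∀ P : Fin (Gamma0 N).index → ℂ[X],
        (∀ τ, ∑ a, (P a).eval (E₄ τ ^ 3 / Δ τ) * F a τ = 0) → P = 0) ∧
      (∀ f, IsWH N 2 f → ∃ P : Fin (Gamma0 N).index → ℂ[X],
        ∀ τ, f τ = ∑ a, (P a).eval (E₄ τ ^ 3 / Δ τ) * F a τ) :=
  exists_jBasis N 2 ⟨1, rfl⟩

end

end Fermat.Agent.S20_helper26
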