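import Mathlib
import Fermat.Agent.S20_helper26.Main
import Fermat.Agent.S20.Defs
import Fermat.Agent.S20.CuspKernel
import Fermat.Agent.S20.Tuple
import Fermat.Agent.S20.Division

/-!
# LATBASIS in the vocabulary of `Fermat.Agent.S20` (T20 / LATBASIS, part 6)

* bridges between `S20.IsWH N k n f` (pole order `≤ n`) and `S20_helper26.IsWH N k f`;
* `exists_basis_tuple`: a tuple `F : X N → ℍ → ℂ` which is a `ℂ[j]`-basis of the weakly holomorphic
  forms of weight `k` on `Γ₀(N)`, with `detFun k F ≢ 0`;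
* `not_saturable`: for such a tuple no nonzero constant combination is divisible by `j - j(τ₀)`,
  hence none has all its conjugates vanishing to the order of `j - j(τ₀)` at `τ₀`.
-/

set_option autoImplicit false

open UpperHalfPlane ModularForm CongruenceSubgroup Function Periodic Filter Topology Polynomial
open scoped MatrixGroups ModularForm Manifold

namespace Fermat.Agent.S20_helper26

noncomputable section

open Fermat.Agent.S20 (X cj detFun conjMat combo polyJ dpow)

local notation "Δ" => ModularForm.discriminant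
local notation "𝕢" => Function.Periodic.qParam

theorem jInv_eq_helper29 : jInv = Fermat.Agent.LevelOne_helper29.jInv := rfl

variable {N : ℕ} [NeZero N] {k : ℤ}

theorem tendsto_discriminant_div_qParam :
    Tendsto (fun z : ℍ => Δ z * (𝕢 1 (z : ℂ))⁻¹) atImInfty (𝓝 1) := by
  have h := tendsto_atImInfty_tprod_one_sub_eta_q_pow
  refine h.congr fun z => ?_
  rw [discriminant_eq_q_prod]
  have hq : 𝕢 1 (z : ℂ) ≠ 0 := Function.Periodic.qParam_ne_zero _
  field_simp

/-- `S20.IsWH` implies `IsWH` -/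
theorem isWH_of_S20 {n : ℕ} {f : ℍ → ℂ} (hf : Fermat.Agent.S20.IsWH N k n f) : IsWH N k f where
  mdiff := hf.mdiff
  slash := fun _ hγ => hf.slash_eq hγ
  mero := fun g => ⟨n, by
    have h1 : IsBoundedAtImInfty (dpow n * (f ∣[k] g)) := hf.isBounded g
    have h2 : IsBoundedAtImInfty fun z : ℍ => (𝕢 1 (z : ℂ) * (Δ z)⁻¹) ^ n :=
      (tendsto_qParam_div_discriminant.pow n).isBigO_one ℝ
    have h3 := h2.mul h1
    refine h3.congr_left fun z => ?_
    have hΔ : Δ z ≠ 0 := discriminant_ne_zero z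
    simp only [Pi.mul_apply, Fermat.Agent.S20.dpow_apply]
    rw [mul_pow, inv_pow]
    field_simp⟩

/-- `IsWH` implies `S20.IsWH` for a suitable bound on the pole orders -/
theorem exists_S20_isWH {f : ℍ → ℂ} (hf : IsWH N k f) :
    ∃ n : ℕ, Fermat.Agent.S20.IsWH N k n f := by
  choose m hm using fun x : X N => hf.mero (Quotient.out x)⁻¹
  set n : ℕ := Finset.univ.sup m with hn
  refine ⟨n, Fermat.Agent.S20.isWH_mk hf.mdiff hf.slash fun δ => ?_⟩
  have h1 : f ∣[k] δ = cj k f ((δ⁻¹ : SL(2, ℤ)) : X N) := by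
    rw [Fermat.Agent.S20.cj_mk hf.slash, inv_inv]
  have h2 : IsBoundedAtImInfty fun z : ℍ => 𝕢 1 (z : ℂ) ^ n * (f ∣[k] δ) z := by
    rw [h1]
    exact bdd_qpow_mono (Finset.le_sup (f := m) (Finset.mem_univ _)) (hm _)
  have h3 : IsBoundedAtImInfty fun z : ℍ => (Δ z * (𝕢 1 (z : ℂ))⁻¹) ^ n :=
    (tendsto_discriminant_div_qParam.pow n).isBigO_one ℝ
  have h4 := h3.mul h2
  refine h4.congr_left fun z => ?_
  have hq : 𝕢 1 (z : ℂ) ≠ 0 := Function.Periodic.qParam_ne_zero _
  simp only [Pi.mul_apply, Fermat.Agent.S20.dpow_apply]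
  rw [mul_pow, inv_pow]
  field_simp

/-- uniform pole order bound for a finite family -/
theorem exists_S20_isWH_family {ι : Type*} [Finite ι] {F : ι → ℍ → ℂ} (hF : ∀ a, IsWH N k (F a)) :
    ∃ n : ℕ, ∀ a, Fermat.Agent.S20.IsWH N k n (F a) := by
  have := Fintype.ofFinite ι
  choose m hm using fun a => exists_S20_isWH (hF a)
  exact ⟨Finset.univ.sup m, fun a => (hm a).mono (Finset.le_sup (f := m) (Finset.mem_univ a))⟩

open Classical in
/-- a tuple which is a combination (over `ℂ[j]`) of another tuple: the determinants multiply -/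
theorem detFun_combo (F : X N → ℍ → ℂ) (A : X N → X N → ℂ[X]) (z : ℍ) :
    detFun k (fun a => combo F (A a)) z =
      (Matrix.of fun a c => polyJ (A a c) z).det * detFun k F z := by
  unfold detFun
  rw [← Matrix.det_mul]
  congr 1
  ext a x
  simp only [conjMat, Matrix.of_apply, Matrix.mul_apply]
  have := congrFun (Fermat.Agent.S20.cj_combo (k := k) F (A a) x) z
  rw [this, Finset.sum_apply]
  rfl

/-- **LATBASIS in `S20` vocabulary**: a tuple indexed by `X N` which spans all weakly holomorphic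
forms of weight `k` over `ℂ[j]` and whose conjugate determinant is not identically zero. -/
theorem exists_basis_tuple (N : ℕ) [NeZero N] {k : ℤ} (hk : Even k) :
    ∃ (n : ℕ) (F : X N → ℍ → ℂ), (∀ a, Fermat.Agent.S20.IsWH N k n (F a)) ∧
      (∃ z, detFun k F z ≠ 0) ∧
      (∀ (m : ℕ) (f : ℍ → ℂ), Fermat.Agent.S20.IsWH N k m f → ∃ a : X N → ℂ[X], f = combo F a) := by
  obtain ⟨F₀, hF₀, -, hspan⟩ := exists_jBasis N k hk
  have hcard : Fintype.card (X N) = (Gamma0 N).index := by
    rw [Subgroup.index_eq_card, Nat.card_eq_fintype_card]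
  let e : X N ≃ Fin (Gamma0 N).index := Fintype.equivFinOfCardEq hcard
  set F : X N → ℍ → ℂ := fun a => F₀ (e a) with hFdef
  obtain ⟨n, hn⟩ := exists_S20_isWH_family (F := F) fun a => hF₀ (e a)
  have hspan' : ∀ (m : ℕ) (f : ℍ → ℂ), Fermat.Agent.S20.IsWH N k m f →
      ∃ a : X N → ℂ[X], f = combo F a := by
    intro m f hf
    obtain ⟨P, hP⟩ := hspan f (isWH_of_S20 hf)
    refine ⟨fun c => P (e c), ?_⟩
    funext z
    rw [hP z, combo, Finset.sum_apply, ← Equiv.sum_comp e]
    rfl
  refine ⟨n, F, hn, ?_, hspan'⟩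
  -- the determinant: compare with the tuple of B2
  obtain ⟨n', G, hG, z, hz⟩ := Fermat.Agent.S20.exists_isWH_tuple N hk
  choose A hA using fun a => hspan' n' (G a) (hG a)
  have hGA : G = fun a => combo F (A a) := funext hA
  rw [hGA, detFun_combo] at hz
  exact ⟨z, right_ne_zero_of_mul hz⟩

/-- For a spanning tuple with `detFun ≢ 0`, no nonzero constant combination is divisible by
`j - j(τ₀)` inside the weakly holomorphic forms. -/
theorem eq_zero_of_combo_div {n : ℕ} {F : X N → ℍ → ℂ}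
    (hF : ∀ a, Fermat.Agent.S20.IsWH N k n (F a)) (hdet : ∃ z, detFun k F z ≠ 0)
    (hspan : ∀ (m : ℕ) (f : ℍ → ℂ), Fermat.Agent.S20.IsWH N k m f →
      ∃ a : X N → ℂ[X], f = combo F a)
    (τ0 : ℍ) (c : X N → ℂ) {m : ℕ} {g : ℍ → ℂ} (hg : Fermat.Agent.S20.IsWH N k m g)
    (h : ∀ z, (∑ a, c a • F a) z = (jInv z - jInv τ0) * g z) : c = 0 := by
  obtain ⟨P, hP⟩ := hspan m g hg
  set A : X N → ℂ[X] := fun a => C (c a) - (Polynomial.X - C (jInv τ0)) * P a with hA
  have h0 : combo F A = 0 := by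
    funext z
    have h1 := h z
    rw [hP] at h1
    simp only [combo, Finset.sum_apply, Pi.mul_apply, Pi.smul_apply, smul_eq_mul,
      Pi.zero_apply] at h1 ⊢
    have h2 : ∀ a, polyJ (A a) z * F a z =
        c a * F a z - (jInv z - jInv τ0) * (polyJ (P a) z * F a z) := by
      intro a
      simp only [hA, Fermat.Agent.S20.polyJ_apply, eval_sub, eval_C, eval_mul, eval_X,
        ← jInv_eq_helper29]
      ring
    simp only [h2, Finset.sum_sub_distrib, ← Finset.mul_sum]
    rw [h1, sub_self]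
  have h1 := Fermat.Agent.S20.combo_eq_zero (fun a => (hF a).mdiff) hdet A h0
  funext a
  have h2 := congrFun h1 a
  simp only [hA, Pi.zero_apply] at h2
  have h3 := congrArg (Polynomial.eval (jInv τ0)) h2
  simpa using h3

/-- **No saturation for a basis tuple**: if all conjugates of a constant combination of a spanning
tuple with `detFun ≢ 0` vanish at `τ₀` to the order of `j - j(τ₀)`, the combination is trivial. -/
theorem not_saturable {n : ℕ} {F : X N → ℍ → ℂ}
    (hF : ∀ a, Fermat.Agent.S20.IsWH N k n (F a)) (hdet : ∃ z, detFun k F z ≠ 0)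
    (hspan : ∀ (m : ℕ) (f : ℍ → ℂ), Fermat.Agent.S20.IsWH N k m f →
      ∃ a : X N → ℂ[X], f = combo F a)
    (τ0 : ℍ) (c : X N → ℂ)
    (hord : ∀ x : X N,
      analyticOrderAt ((fun z => Fermat.Agent.LevelOne_helper29.jInv z -
        Fermat.Agent.LevelOne_helper29.jInv τ0) ∘ ofComplex) (τ0 : ℂ) ≤
      analyticOrderAt (cj k (∑ a, c a • F a) x ∘ ofComplex) (τ0 : ℂ)) : c = 0 := by
  have hsum : Fermat.Agent.S20.IsWH N k n (∑ a, c a • F a) :=
    Fermat.Agent.S20.IsWH.sum _ fun a _ => (hF a).smul (c a)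
  obtain ⟨g, hg, hgeq⟩ := Fermat.Agent.S20.exists_isWH_div hsum τ0 hord
  exact eq_zero_of_combo_div hF hdet hspan τ0 c hg hgeq

end

end Fermat.Agent.S20_helper26
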