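import Mathlib
import Fermat.Agent.S20_helper26.WH

/-!
# Bridge between `IsWH` and Mathlib's `ModularForm` / `CuspForm` on `Γ₀(N)`
(T20 / LATBASIS, part 5)
-/

set_option autoImplicit false

open UpperHalfPlane ModularForm CongruenceSubgroup Function Periodic Filter Topology
open scoped MatrixGroups ModularForm Manifold

namespace Fermat.Agent.S20_helper26

noncomputable section

variable {N : ℕ} [NeZero N] {k : ℤ}

/-- modular forms on `Γ₀(N)` are weakly holomorphic -/
theorem isWH_of_modularForm_Gamma0 (F : ModularForm (Gamma0 N) k) : IsWH N k F := by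
  refine ⟨ModularFormClass.holo F, fun γ hγ => ?_, fun g => ⟨0, ?_⟩⟩
  · exact SlashInvariantFormClass.slash_action_eq F _ ⟨γ, hγ, rfl⟩
  · have h2 : IsBoundedAtImInfty ((F : ℍ → ℂ) ∣[k] g) := ModularFormClass.bdd_at_infty_slash F g
    refine h2.congr_left fun z => ?_
    simp

/-- cusp forms on `Γ₀(N)` are weakly holomorphic -/
theorem isWH_of_cuspForm_Gamma0 (F : CuspForm (Gamma0 N) k) : IsWH N k F := by
  refine ⟨CuspFormClass.holo F, fun γ hγ => ?_, fun g => ⟨0, ?_⟩⟩
  · exact SlashInvariantFormClass.slash_action_eq F _ ⟨γ, hγ, rfl⟩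
  · have h2 : IsZeroAtImInfty ((F : ℍ → ℂ) ∣[k] g) := CuspFormClass.zero_at_infty_slash F g
    have h3 : IsBoundedAtImInfty ((F : ℍ → ℂ) ∣[k] g) := h2.boundedAtFilter
    refine h3.congr_left fun z => ?_
    simp

omit [NeZero N] in
theorem Gamma0_map_le_SL : ((Gamma0 N : Subgroup SL(2, ℤ)) : Subgroup (GL (Fin 2) ℝ)) ≤ 𝒮ℒ := by
  rintro _ ⟨γ, -, rfl⟩
  exact ⟨γ, rfl⟩

/-- a weakly holomorphic form which is bounded at all cusps is a modular form -/
theorem IsWH.exists_modularForm {f : ℍ → ℂ} (hf : IsWH N k f)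
    (hb : ∀ g : SL(2, ℤ), IsBoundedAtImInfty (f ∣[k] g)) :
    ∃ F : ModularForm (Gamma0 N) k, (F : ℍ → ℂ) = f := by
  refine ⟨{ toFun := f
            slash_action_eq' := ?_
            holo' := hf.mdiff
            bdd_at_cusps' := ?_ }, rfl⟩
  · rintro _ ⟨γ, hγ, rfl⟩
    exact hf.slash γ hγ
  · intro c hc
    rw [OnePoint.isBoundedAt_iff_forall_SL2Z (hc.mono Gamma0_map_le_SL)]
    exact fun γ _ => hb γ

/-- a weakly holomorphic form which vanishes at all cusps is a cusp form -/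
theorem IsWH.exists_cuspForm {f : ℍ → ℂ} (hf : IsWH N k f)
    (hz : ∀ g : SL(2, ℤ), IsZeroAtImInfty (f ∣[k] g)) :
    ∃ F : CuspForm (Gamma0 N) k, (F : ℍ → ℂ) = f := by
  refine ⟨{ toFun := f
            slash_action_eq' := ?_
            holo' := hf.mdiff
            zero_at_cusps' := ?_ }, rfl⟩
  · rintro _ ⟨γ, hγ, rfl⟩
    exact hf.slash γ hγ
  · intro c hc
    rw [OnePoint.isZeroAt_iff_forall_SL2Z (hc.mono Gamma0_map_le_SL)]
    exact fun γ _ => hz γ

end

end Fermat.Agent.S20_helper26
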